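/-
S18 / wave 4 (helper60): leaf `unit_facts` of the skeleton `origin/helper74`
(`Fermat/Agent/S18/H74/Top.lean`, v2 @c077763): for a valuation subring `A` of `ℚ̄` lying over
the prime `ℓ` and `ℓ ∤ m`:
  `A ≠ ⊤`, `m ≠ 0`, `m` is a unit of `A`, and `A` has rank one (archimedean value group):
  for `a ∈ 𝔪_A` and `c ≠ 0` some `a ^ n / c` lies in `A`.
-/
import Mathlib
import Fermat.Prelude.Def_FLTPrelim_Ramification

set_option autoImplicit false

noncomputable section

namespace Fermat.Agent.S18.H60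

/-- Integers lie in every valuation subring. -/
theorem intCast_mem_valuationSubring {L : Type*} [Field L] (A : ValuationSubring L) (n : ℤ) :
    (n : L) ∈ A := by
  have : ((n : A) : L) = (n : L) := by push_cast; rfl
  exact this ▸ (n : A).2

/-- Integers have valuation `≤ 1`. -/
theorem valuation_intCast_le_one {L : Type*} [Field L] (A : ValuationSubring L) (n : ℤ) :
    A.valuation (n : L) ≤ 1 :=
  (A.valuation_le_one_iff _).mpr (intCast_mem_valuationSubring A n)

/-- An integer prime to `ℓ` has valuation `1` in every valuation subring lying over `ℓ`. -/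
theorem valuation_intCast_eq_one_of_not_dvd {L : Type*} [Field L] {ℓ : ℕ} [hℓ : Fact ℓ.Prime]
    (A : ValuationSubring L) (hA : A.LiesOverPrime ℓ) (b : ℤ) (hb : ¬ (ℓ : ℤ) ∣ b) :
    A.valuation (b : L) = 1 := by
  have hval : A.valuation (ℓ : L) < 1 := A.mem_nonunits_iff.mp hA
  have hprime : Prime (ℓ : ℤ) := Nat.prime_iff_prime_int.mp hℓ.out
  have hcop : IsCoprime b (ℓ : ℤ) :=
    ((hprime.coprime_iff_not_dvd).mpr hb).symm
  obtain ⟨s, t, hst⟩ := hcop
  have hbezL : (s : L) * (b : L) + (t : L) * (ℓ : L) = 1 := by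
    have := congrArg (Int.cast (R := L)) hst
    push_cast at this
    exact this
  refine le_antisymm (valuation_intCast_le_one A b) ?_
  by_contra hlt
  rw [not_le] at hlt
  have h1 : A.valuation ((s : L) * (b : L)) < 1 := by
    rw [map_mul, mul_comm]
    exact mul_lt_one_of_lt_of_le hlt (valuation_intCast_le_one A _)
  have h2 : A.valuation ((t : L) * (ℓ : L)) < 1 := by
    rw [map_mul, mul_comm]
    exact mul_lt_one_of_lt_of_le hval (valuation_intCast_le_one A _)
  have h3 := A.valuation.map_add ((s : L) * (b : L)) ((t : L) * (ℓ : L))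
  rw [hbezL, map_one] at h3
  exact absurd h3 (not_le.mpr (max_lt h1 h2))

/-- An integer prime to `ℓ` is a unit in every valuation subring lying over `ℓ`. -/
theorem natCast_inv_mem_of_not_dvd {L : Type*} [Field L] {ℓ : ℕ} [hℓ : Fact ℓ.Prime]
    (A : ValuationSubring L) (hA : A.LiesOverPrime ℓ) (m : ℕ) (hm : ¬ ℓ ∣ m) :
    ((m : L))⁻¹ ∈ A := by
  have heq : A.valuation (m : L) = 1 := by
    have := valuation_intCast_eq_one_of_not_dvd A hA (m : ℤ) (by exact_mod_cast hm)
    simpa using this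
  refine (A.valuation_le_one_iff _).mp ?_
  rw [map_inv₀, heq, inv_one]

/-- General form of the first three clauses of `unit_facts`. -/
theorem unit_facts_gen {L : Type*} [Field L] [CharZero L] {ℓ : ℕ} [hℓ : Fact ℓ.Prime]
    (A : ValuationSubring L) (hA : A.LiesOverPrime ℓ) (m : ℕ) (hm : ¬ ℓ ∣ m) :
    A ≠ ⊤ ∧ m ≠ 0 ∧ ((m : L))⁻¹ ∈ A := by
  have hval : A.valuation (ℓ : L) < 1 := A.mem_nonunits_iff.mp hA
  have hℓ0 : (ℓ : L) ≠ 0 := Nat.cast_ne_zero.mpr hℓ.out.ne_zero
  refine ⟨?_, ?_, natCast_inv_mem_of_not_dvd A hA m hm⟩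
  · rintro rfl
    have hinv : ((ℓ : L))⁻¹ ∈ (⊤ : ValuationSubring L) := ValuationSubring.mem_top _
    have h1 : (⊤ : ValuationSubring L).valuation ((ℓ : L))⁻¹ ≤ 1 :=
      ((⊤ : ValuationSubring L).valuation_le_one_iff _).mpr hinv
    have h2 : (⊤ : ValuationSubring L).valuation ((ℓ : L) * (ℓ : L)⁻¹) < 1 := by
      rw [map_mul]
      exact mul_lt_one_of_lt_of_le hval h1
    rw [mul_inv_cancel₀ hℓ0, map_one] at h2
    exact lt_irrefl _ h2
  · rintro rfl
    exact hm (dvd_zero ℓ)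

/-! ### Rank one -/

/-- Elements integral over `ℤ` lie in every valuation subring. -/
theorem mem_valuationSubring_of_isIntegral_int {L : Type*} [Field L] (A : ValuationSubring L)
    {z : L} (hz : IsIntegral ℤ z) : z ∈ A := by
  have hx : IsIntegral A z := hz.tower_top
  obtain ⟨y, hy⟩ := IsIntegrallyClosed.isIntegral_iff.mp hx
  exact hy ▸ y.2

/-- Every nonzero element of an algebraic extension of `ℚ` is bounded below (in any valuation
subring) by a nonzero integer. -/
theorem exists_int_valuation_le {L : Type*} [Field L] [CharZero L] [Algebra ℚ L]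
    [Algebra.IsAlgebraic ℚ L] (A : ValuationSubring L) {c : L} (hc : c ≠ 0) :
    ∃ b : ℤ, b ≠ 0 ∧ A.valuation (b : L) ≤ A.valuation c := by
  have halg : IsAlgebraic ℤ c⁻¹ :=
    (IsFractionRing.isAlgebraic_iff ℤ ℚ L).mpr (Algebra.IsAlgebraic.isAlgebraic c⁻¹)
  obtain ⟨y, hy0, hy⟩ := halg.exists_integral_multiple
  refine ⟨y, hy0, ?_⟩
  have hmem : y • c⁻¹ ∈ A := mem_valuationSubring_of_isIntegral_int A hy
  have h1 : A.valuation (y • c⁻¹) ≤ 1 := (A.valuation_le_one_iff _).mpr hmem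
  rw [zsmul_eq_mul, map_mul, map_inv₀] at h1
  have hvc : A.valuation c ≠ 0 := (Valuation.ne_zero_iff _).mpr hc
  calc A.valuation (y : L) = A.valuation (y : L) * (A.valuation c)⁻¹ * A.valuation c := by
        rw [inv_mul_cancel_right₀ hvc]
    _ ≤ 1 * A.valuation c := mul_le_mul_left h1 _
    _ = A.valuation c := one_mul _

/-- A nonzero integer is bounded below by a power of `ℓ`. -/
theorem exists_pow_valuation_le_int {L : Type*} [Field L] [CharZero L] {ℓ : ℕ}
    [hℓ : Fact ℓ.Prime] (A : ValuationSubring L) (hA : A.LiesOverPrime ℓ) {b : ℤ} (hb : b ≠ 0) :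
    ∃ j : ℕ, A.valuation (ℓ : L) ^ j ≤ A.valuation (b : L) := by
  have hprime : Prime (ℓ : ℤ) := Nat.prime_iff_prime_int.mp hℓ.out
  obtain ⟨j, b', hb', rfl⟩ :=
    WfDvdMonoid.max_power_factor hb hprime.irreducible
  refine ⟨j, le_of_eq ?_⟩
  have h1 := valuation_intCast_eq_one_of_not_dvd A hA b' hb'
  push_cast
  rw [map_mul, map_pow, h1, mul_one]

/-- Every element of the maximal ideal has a power divisible by `ℓ`. -/
theorem exists_pow_valuation_le_prime {L : Type*} [Field L] [CharZero L] [Algebra ℚ L]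
    [Algebra.IsAlgebraic ℚ L] {ℓ : ℕ} [hℓ : Fact ℓ.Prime] (A : ValuationSubring L)
    (hA : A.LiesOverPrime ℓ) {a : L} (ha : a ∈ A.nonunits) :
    ∃ k : ℕ, A.valuation a ^ k ≤ A.valuation (ℓ : L) := by
  rcases eq_or_ne a 0 with rfl | ha0
  · exact ⟨1, by simp⟩
  have hva : A.valuation a < 1 := A.mem_nonunits_iff.mp ha
  have hva0 : A.valuation a ≠ 0 := (Valuation.ne_zero_iff _).mpr ha0
  have halg : IsAlgebraic ℤ a :=
    (IsFractionRing.isAlgebraic_iff ℤ ℚ L).mpr (Algebra.IsAlgebraic.isAlgebraic a)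
  obtain ⟨p, hp0, hpa⟩ := halg
  -- pass to the primitive part
  have hqa : Polynomial.aeval a p.primPart = 0 := by
    have h := congrArg (Polynomial.aeval a) p.eq_C_content_mul_primPart
    rw [hpa, map_mul, Polynomial.aeval_C] at h
    have hc : algebraMap ℤ L p.content ≠ 0 := by
      simpa using (Polynomial.content_eq_zero_iff.not.mpr hp0)
    exact (mul_eq_zero.mp h.symm).resolve_left hc
  have hprim : p.primPart.IsPrimitive := p.isPrimitive_primPart
  have hex : ∃ i, ¬ (ℓ : ℤ) ∣ p.primPart.coeff i := by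
    by_contra hall
    push Not at hall
    have hdvd : Polynomial.C (ℓ : ℤ) ∣ p.primPart :=
      (Polynomial.C_dvd_iff_dvd_coeff _ _).mpr hall
    exact (Nat.prime_iff_prime_int.mp hℓ.out).not_isUnit (hprim _ hdvd)
  classical
  have hi0_spec : ¬ (ℓ : ℤ) ∣ p.primPart.coeff (Nat.find hex) := Nat.find_spec hex
  have hi0_min : ∀ i < Nat.find hex, (ℓ : ℤ) ∣ p.primPart.coeff i :=
    fun i hi => not_not.mp (Nat.find_min hex hi)
  generalize Nat.find hex = i0 at hi0_spec hi0_min
  generalize p.primPart = q at hqa hi0_spec hi0_min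
  refine ⟨i0, ?_⟩
  have hsum : ∑ i ∈ Finset.range (q.natDegree + 1), ((q.coeff i : ℤ) : L) * a ^ i = 0 := by
    rw [← hqa, Polynomial.aeval_eq_sum_range]
    exact Finset.sum_congr rfl fun i _ => (zsmul_eq_mul _ _).symm
  have hi0_mem : i0 ∈ Finset.range (q.natDegree + 1) := by
    rw [Finset.mem_range, Nat.lt_succ_iff]
    refine Polynomial.le_natDegree_of_ne_zero ?_
    rintro h0
    exact hi0_spec (h0 ▸ dvd_zero _)
  rw [← Finset.add_sum_erase _ _ hi0_mem] at hsum
  have hterm : ((q.coeff i0 : ℤ) : L) * a ^ i0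
      = -∑ i ∈ (Finset.range (q.natDegree + 1)).erase i0, ((q.coeff i : ℤ) : L) * a ^ i :=
    eq_neg_of_add_eq_zero_left hsum
  have hval := congrArg A.valuation hterm
  rw [map_mul, map_pow, valuation_intCast_eq_one_of_not_dvd A hA _ hi0_spec, one_mul,
    Valuation.map_neg] at hval
  have hval_ℓ : A.valuation (ℓ : L) < 1 := A.mem_nonunits_iff.mp hA
  have hbound : A.valuation (∑ i ∈ (Finset.range (q.natDegree + 1)).erase i0,
      ((q.coeff i : ℤ) : L) * a ^ i) ≤ max (A.valuation (ℓ : L)) (A.valuation a ^ (i0 + 1)) := by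
    refine Valuation.map_sum_le _ fun i hi => ?_
    rw [Finset.mem_erase] at hi
    rcases lt_or_gt_of_ne hi.1 with hlt | hgt
    · -- `i < i0`: the coefficient is divisible by `ℓ`
      obtain ⟨t, ht⟩ := hi0_min i hlt
      refine le_max_of_le_left ?_
      rw [ht]
      push_cast
      rw [map_mul, map_mul, map_pow, mul_assoc]
      refine mul_le_of_le_one_right' (mul_le_one' (valuation_intCast_le_one A t) ?_)
      exact pow_le_one' hva.le i
    · -- `i > i0`
      refine le_max_of_le_right ?_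
      rw [map_mul, map_pow]
      refine (mul_le_of_le_one_left' (valuation_intCast_le_one A _)).trans ?_
      exact pow_le_pow_right_of_le_one' hva.le hgt
  rw [← hval] at hbound
  rcases le_max_iff.mp hbound with h | h
  · exact h
  · exfalso
    rw [pow_succ] at h
    have hpos : 0 < A.valuation a ^ i0 := pow_pos (zero_lt_iff.mpr hva0) i0
    exact absurd h (not_le.mpr (mul_lt_of_lt_one_right hpos hva))

/-- **Rank one**: for `a ∈ 𝔪_A` and `c ≠ 0` some `a ^ n / c` lies in `A`. -/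
theorem exists_pow_mul_inv_mem {L : Type*} [Field L] [CharZero L] [Algebra ℚ L]
    [Algebra.IsAlgebraic ℚ L] {ℓ : ℕ} [hℓ : Fact ℓ.Prime] (A : ValuationSubring L)
    (hA : A.LiesOverPrime ℓ) (a c : L) (ha : a ∈ A.nonunits) (hc : c ≠ 0) :
    ∃ n : ℕ, a ^ n * c⁻¹ ∈ A := by
  obtain ⟨b, hb0, hb⟩ := exists_int_valuation_le A hc
  obtain ⟨j, hj⟩ := exists_pow_valuation_le_int A hA hb0
  obtain ⟨k, hk⟩ := exists_pow_valuation_le_prime A hA ha
  refine ⟨k * j, (A.valuation_le_one_iff _).mp ?_⟩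
  have hvc : A.valuation c ≠ 0 := (Valuation.ne_zero_iff _).mpr hc
  have h1 : A.valuation a ^ (k * j) ≤ A.valuation c := by
    rw [pow_mul]
    exact ((pow_le_pow_left₀ zero_le hk j).trans hj).trans hb
  rw [map_mul, map_pow, map_inv₀]
  calc A.valuation a ^ (k * j) * (A.valuation c)⁻¹ ≤ A.valuation c * (A.valuation c)⁻¹ :=
        mul_le_mul_left h1 _
    _ = 1 := mul_inv_cancel₀ hvc

/-- `unit_facts`, statement verbatim from `origin/helper74` v2 (`Kb = AlgebraicClosure ℚ`). -/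
theorem unit_facts {ℓ : ℕ} [Fact ℓ.Prime] (A : ValuationSubring (AlgebraicClosure ℚ))
    (hA : A.LiesOverPrime ℓ) (m : ℕ) (hm : ¬ ℓ ∣ m) :
    A ≠ ⊤ ∧ m ≠ 0 ∧ ((m : AlgebraicClosure ℚ))⁻¹ ∈ A ∧
      ∀ a c : AlgebraicClosure ℚ, a ∈ A.nonunits → c ≠ 0 → ∃ n : ℕ, a ^ n * c⁻¹ ∈ A := by
  obtain ⟨h1, h2, h3⟩ := unit_facts_gen A hA m hm
  exact ⟨h1, h2, h3, fun a c ha hc =>
    @exists_pow_mul_inv_mem (AlgebraicClosure ℚ) _ _ (AlgebraicClosure.instAlgebra ℚ)
      (AlgebraicClosure.isAlgebraic ℚ) ℓ _ A hA a c ha hc⟩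

end Fermat.Agent.S18.H60
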