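/-
S18 / wave 4 (helper60): leaf B6 of `exists_setup` (skeleton `origin/helper74`): the index
`[F_{N'} : F_N]` for `N ∣ N'`, with the algebra structure given by the INCLUSION
`modularFunctionFieldBar N ≤ modularFunctionFieldBar N'` inside `ℚ̄((q))`.

  `ψ(N) * [F_{N'} : F_N] = ψ(N')`,   `F_{N'} / F_N` finite,
  `[F_{2N} : F_N] = 3` for `N` odd,   `[F_{3N} : F_N] = 4` for `3 ∤ N`.

Proof: tower law over the level-one `j`-line, `[F_N : ℚ̄(j)] = ψ(N)` (`DegreeJ.lean`).
-/
import Mathlib
import Fermat.Agent.S18.H60.DegreeJ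

set_option autoImplicit false

open AlgebraicCurve ModularCurve Fermat.Agent.S24 IntermediateField

noncomputable section

namespace Fermat.Agent.S18.H60

/-- The level-one `j` as an element of `ℚ̄((q))`. -/
def jAmb : LaurentSeries Kbar := coeffEmb Kbar (qExpand ℚ 1 jq)

theorem coe_jgen (N : ℕ) [NeZero N] : ((jgen N : FF N) : LaurentSeries Kbar) = jAmb := rfl

/-- `F_N ≤ F_{N'}` for `N ∣ N'`. -/
theorem modularFunctionFieldBar_mono {N N' : ℕ} [NeZero N] [NeZero N'] (h : N ∣ N') :
    modularFunctionFieldBar N ≤ modularFunctionFieldBar N' :=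
  IntermediateField.adjoin.mono _ _ _ (Set.image_mono (full_degeneracy_le h))

theorem adjoin_jAmb_le (N : ℕ) [NeZero N] :
    IntermediateField.adjoin Kbar {jAmb} ≤ modularFunctionFieldBar N := by
  rw [IntermediateField.adjoin_le_iff]
  rintro _ rfl
  exact (jgen N).2

/-- `[F_N : ℚ̄(j)] = ψ(N)` in the ambient field `ℚ̄((q))`. -/
theorem relfinrank_jAmb (N : ℕ) [NeZero N] :
    IntermediateField.relfinrank (IntermediateField.adjoin Kbar {jAmb}) (modularFunctionFieldBar N)
      = dedekindPsi N := by
  have hcomap : (IntermediateField.adjoin Kbar {jAmb}).comap (modularFunctionFieldBar N).val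
      = IntermediateField.adjoin Kbar {jgen N} := by
    apply le_antisymm
    · intro x hx
      have hmap : (IntermediateField.adjoin Kbar {jgen N}).map (modularFunctionFieldBar N).val
          = IntermediateField.adjoin Kbar {jAmb} := by
        rw [IntermediateField.adjoin_map, Set.image_singleton]
        rfl
      have hx' : (modularFunctionFieldBar N).val x ∈ IntermediateField.adjoin Kbar {jAmb} := hx
      rw [← hmap] at hx'
      obtain ⟨y, hy, hyx⟩ := hx'
      have : y = x := Subtype.ext hyx
      exact this ▸ hy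
    · rw [IntermediateField.adjoin_le_iff]
      rintro _ rfl
      show (modularFunctionFieldBar N).val (jgen N) ∈ IntermediateField.adjoin Kbar {jAmb}
      exact IntermediateField.subset_adjoin _ _ rfl
  have h := IntermediateField.finrank_comap (A := IntermediateField.adjoin Kbar {jAmb})
    (modularFunctionFieldBar N).val
  rw [IntermediateField.fieldRange_val, hcomap] at h
  rw [← h]
  exact finrank_adjoin_jgen N

/-- Tower law: `ψ(N) * [F_{N'} : F_N] = ψ(N')` (relative rank in the ambient field). -/
theorem dedekindPsi_mul_relfinrank {N N' : ℕ} [NeZero N] [NeZero N'] (h : N ∣ N') :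
    dedekindPsi N * IntermediateField.relfinrank (modularFunctionFieldBar N)
      (modularFunctionFieldBar N') = dedekindPsi N' := by
  have := IntermediateField.relfinrank_mul_relfinrank (adjoin_jAmb_le N)
    (modularFunctionFieldBar_mono h)
  rwa [relfinrank_jAmb, relfinrank_jAmb] at this

/-- For intermediate fields `A ≤ B`, the `A`-module `B` (via the inclusion) is the `A`-module
`extendScalars`. -/
def inclusionLinearEquiv {K L : Type*} [Field K] [Field L] [Algebra K L]
    {A B : IntermediateField K L} (h : A ≤ B) :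
    letI : Algebra A B := (IntermediateField.inclusion h).toRingHom.toAlgebra
    B ≃ₗ[A] (IntermediateField.extendScalars h) :=
  letI : Algebra A B := (IntermediateField.inclusion h).toRingHom.toAlgebra
  { toFun := fun x => ⟨x.1, x.2⟩
    invFun := fun x => ⟨x.1, x.2⟩
    map_add' := fun _ _ => rfl
    map_smul' := fun _ _ => rfl
    left_inv := fun _ => rfl
    right_inv := fun _ => rfl }

/-- `relfinrank A B` is the rank of `B` as an `A`-module via the inclusion. -/
theorem finrank_inclusion_eq_relfinrank {K L : Type*} [Field K] [Field L] [Algebra K L]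
    {A B : IntermediateField K L} (h : A ≤ B) :
    letI : Algebra A B := (IntermediateField.inclusion h).toRingHom.toAlgebra
    Module.finrank A B = IntermediateField.relfinrank A B := by
  letI : Algebra A B := (IntermediateField.inclusion h).toRingHom.toAlgebra
  rw [IntermediateField.relfinrank_eq_finrank_of_le h]
  exact (inclusionLinearEquiv h).finrank_eq

theorem dedekindPsi_pos (N : ℕ) [NeZero N] : 0 < dedekindPsi N := by
  rw [← S20.H77.card_quotient_Gamma0 N]
  exact Nat.card_pos

/-- **B6, general form**: for `N ∣ N'` the extension `F_{N'} / F_N` (inclusion) is finite of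
degree `ψ(N') / ψ(N)`. -/
theorem index_facts {N N' : ℕ} [NeZero N] [NeZero N'] (hdvd : N ∣ N')
    (hle : modularFunctionFieldBar N ≤ modularFunctionFieldBar N') :
    letI : Algebra ↥(modularFunctionFieldBar N) ↥(modularFunctionFieldBar N') :=
      (IntermediateField.inclusion hle).toRingHom.toAlgebra
    dedekindPsi N * Module.finrank ↥(modularFunctionFieldBar N) ↥(modularFunctionFieldBar N')
        = dedekindPsi N' ∧
      Module.Finite ↥(modularFunctionFieldBar N) ↥(modularFunctionFieldBar N') := by
  letI : Algebra ↥(modularFunctionFieldBar N) ↥(modularFunctionFieldBar N') :=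
    (IntermediateField.inclusion hle).toRingHom.toAlgebra
  have h1 : dedekindPsi N * Module.finrank ↥(modularFunctionFieldBar N)
      ↥(modularFunctionFieldBar N') = dedekindPsi N' := by
    rw [finrank_inclusion_eq_relfinrank hle]
    exact dedekindPsi_mul_relfinrank hdvd
  refine ⟨h1, Module.finite_of_finrank_pos ?_⟩
  have hpos := dedekindPsi_pos N'
  rw [← h1] at hpos
  exact Nat.pos_of_mul_pos_left hpos

/-- If `ψ(N') = c ψ(N)` then `[F_{N'} : F_N] = c`. -/
theorem finrank_eq_of_dedekindPsi_eq {N N' : ℕ} [NeZero N] [NeZero N'] (hdvd : N ∣ N')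
    (hle : modularFunctionFieldBar N ≤ modularFunctionFieldBar N') (c : ℕ)
    (hc : dedekindPsi N' = c * dedekindPsi N) :
    letI : Algebra ↥(modularFunctionFieldBar N) ↥(modularFunctionFieldBar N') :=
      (IntermediateField.inclusion hle).toRingHom.toAlgebra
    Module.finrank ↥(modularFunctionFieldBar N) ↥(modularFunctionFieldBar N') = c := by
  letI : Algebra ↥(modularFunctionFieldBar N) ↥(modularFunctionFieldBar N') :=
    (IntermediateField.inclusion hle).toRingHom.toAlgebra
  have h1 := (index_facts hdvd hle).1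
  rw [hc, mul_comm c] at h1
  exact Nat.eq_of_mul_eq_mul_left (dedekindPsi_pos N) h1

/-- `ψ(lcm(N,p)) = ψ(N)` or `(p+1) ψ(N)`. -/
theorem dedekindPsi_lcm_prime (N : ℕ) [NeZero N] {p : ℕ} (hp : p.Prime) :
    dedekindPsi (Nat.lcm N p) = (if p ∣ N then 1 else p + 1) * dedekindPsi N := by
  split_ifs with h
  · rw [Nat.lcm_eq_left h, one_mul]
  · have hcop : Nat.Coprime N p := ((Nat.Prime.coprime_iff_not_dvd hp).mpr h).symm
    rw [hcop.lcm_eq_mul]
    exact S20.H77.dedekindPsi_mul_prime_of_not_dvd hp (NeZero.ne N) h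

theorem neZero_lcm (N p : ℕ) [NeZero N] [NeZero p] : NeZero (Nat.lcm N p) :=
  ⟨Nat.lcm_ne_zero (NeZero.ne N) (NeZero.ne p)⟩

/-- **B6 at `ℓ = 3`** (level `N' = lcm(N,2)`): `[F_{N'} : F_N] ∈ {1, 3}` is prime to every `m`
with `3 ∤ m`. -/
theorem index_lcm_two (N : ℕ) [NeZero N] (m : ℕ) (hm : ¬ 3 ∣ m)
    (hle : modularFunctionFieldBar N ≤ modularFunctionFieldBar (Nat.lcm N 2)) :
    letI : Algebra ↥(modularFunctionFieldBar N) ↥(modularFunctionFieldBar (Nat.lcm N 2)) :=
      (IntermediateField.inclusion hle).toRingHom.toAlgebra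
    (Module.finrank ↥(modularFunctionFieldBar N) ↥(modularFunctionFieldBar (Nat.lcm N 2))).Coprime m
      ∧ Module.Finite ↥(modularFunctionFieldBar N) ↥(modularFunctionFieldBar (Nat.lcm N 2)) := by
  letI : Algebra ↥(modularFunctionFieldBar N) ↥(modularFunctionFieldBar (Nat.lcm N 2)) :=
    (IntermediateField.inclusion hle).toRingHom.toAlgebra
  have hdvd : N ∣ Nat.lcm N 2 := Nat.dvd_lcm_left N 2
  haveI := neZero_lcm N 2
  refine ⟨?_, (index_facts hdvd hle).2⟩
  rw [finrank_eq_of_dedekindPsi_eq hdvd hle _ (dedekindPsi_lcm_prime N Nat.prime_two)]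
  split_ifs
  · exact Nat.coprime_one_left m
  · exact (Nat.Prime.coprime_iff_not_dvd Nat.prime_three).mpr hm

/-- **B6 at `ℓ = 2`** (level `N' = lcm(N,3)`): `[F_{N'} : F_N] ∈ {1, 4}` is prime to every odd
`m`. -/
theorem index_lcm_three (N : ℕ) [NeZero N] (m : ℕ) (hm : ¬ 2 ∣ m)
    (hle : modularFunctionFieldBar N ≤ modularFunctionFieldBar (Nat.lcm N 3)) :
    letI : Algebra ↥(modularFunctionFieldBar N) ↥(modularFunctionFieldBar (Nat.lcm N 3)) :=
      (IntermediateField.inclusion hle).toRingHom.toAlgebra
    (Module.finrank ↥(modularFunctionFieldBar N) ↥(modularFunctionFieldBar (Nat.lcm N 3))).Coprime m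
      ∧ Module.Finite ↥(modularFunctionFieldBar N) ↥(modularFunctionFieldBar (Nat.lcm N 3)) := by
  letI : Algebra ↥(modularFunctionFieldBar N) ↥(modularFunctionFieldBar (Nat.lcm N 3)) :=
    (IntermediateField.inclusion hle).toRingHom.toAlgebra
  have hdvd : N ∣ Nat.lcm N 3 := Nat.dvd_lcm_left N 3
  haveI := neZero_lcm N 3
  refine ⟨?_, (index_facts hdvd hle).2⟩
  rw [finrank_eq_of_dedekindPsi_eq hdvd hle _ (dedekindPsi_lcm_prime N Nat.prime_three)]
  split_ifs
  · exact Nat.coprime_one_left m
  · have h2 : Nat.Coprime 2 m := (Nat.Prime.coprime_iff_not_dvd Nat.prime_two).mpr hm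
    exact Nat.Coprime.pow_left 2 h2

/-- **B6, generic coprimality form** (covers `N' = N` with `c = 1`; stated for a general `N'`
so that the module structure is the one coming from the inclusion also when `N' = N`). -/
theorem index_coprime {N N' : ℕ} [NeZero N] [NeZero N'] (hdvd : N ∣ N')
    (hle : modularFunctionFieldBar N ≤ modularFunctionFieldBar N') (c m : ℕ)
    (hc : dedekindPsi N' = c * dedekindPsi N) (hcm : c.Coprime m) :
    letI : Algebra ↥(modularFunctionFieldBar N) ↥(modularFunctionFieldBar N') :=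
      (IntermediateField.inclusion hle).toRingHom.toAlgebra
    (Module.finrank ↥(modularFunctionFieldBar N) ↥(modularFunctionFieldBar N')).Coprime m
      ∧ Module.Finite ↥(modularFunctionFieldBar N) ↥(modularFunctionFieldBar N') := by
  letI : Algebra ↥(modularFunctionFieldBar N) ↥(modularFunctionFieldBar N') :=
    (IntermediateField.inclusion hle).toRingHom.toAlgebra
  refine ⟨?_, (index_facts hdvd hle).2⟩
  rw [finrank_eq_of_dedekindPsi_eq hdvd hle c hc]
  exact hcm

end Fermat.Agent.S18.H60
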