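/-
S18 / wave 4 (helper60): the index leaves of helper28's bridge sub-skeleton
(`origin/helper28`, `Fermat/Agent/S18/H28/SetupAsm.lean` @4b44ba0) in their VERBATIM shapes,
against the landed `H74.algFN`:

* `index_self N`     : `[F_N : F_N] = 1` (algebra structure `algFN N N le_rfl`), finite;
* `index_eq N M ..`  : `[F_{N M} : F_N] = M + 1` for a prime `M ∤ N`, finite.

(`modularFunctionFieldBar_mono` of the same sub-skeleton is `H60.modularFunctionFieldBar_mono`.)
-/
import Mathlib
import Fermat.Agent.S18.H60.Index
import Fermat.Agent.S18.H74.TopDefs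

set_option autoImplicit false

open AlgebraicCurve IntermediateField ModularCurve

noncomputable section

namespace Fermat.Agent.S18.H60

open Fermat.Agent.S18.H74

/-- `[F_N : F_N] = 1` for the algebra structure of `algFN` (no hypothesis on `N`). -/
theorem index_self (N : ℕ) :
    letI := algFN N N le_rfl
    (Module.finrank (FN N) (FN N) = 1 ∧ Module.Finite (FN N) (FN N)) := by
  letI := algFN N N le_rfl
  have h1 : Module.finrank (FN N) (FN N) = 1 := by
    have h := finrank_inclusion_eq_relfinrank (le_refl (modularFunctionFieldBar N))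
    rw [IntermediateField.relfinrank_self] at h
    exact h
  exact ⟨h1, Module.finite_of_finrank_pos (by rw [h1]; exact Nat.one_pos)⟩

/-- **B6** `[F_{N M} : F_N] = M + 1` for a prime `M ∤ N`. -/
theorem index_eq (N M : ℕ) [NeZero N] [NeZero (N * M)] (hM : M.Prime) (hMN : ¬ M ∣ N)
    (hle : modularFunctionFieldBar N ≤ modularFunctionFieldBar (N * M)) :
    letI := algFN N (N * M) hle
    (Module.finrank (FN N) (FN (N * M)) = M + 1 ∧ Module.Finite (FN N) (FN (N * M))) := by
  letI := algFN N (N * M) hle
  exact ⟨finrank_eq_of_dedekindPsi_eq (dvd_mul_right N M) hle (M + 1)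
      (S20.H77.dedekindPsi_mul_prime_of_not_dvd hM (NeZero.ne N) hMN),
    (index_facts (dvd_mul_right N M) hle).2⟩

end Fermat.Agent.S18.H60
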