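/-
S18 / wave 4 (helper60): leaf P11b of the route of report #1073 (skeleton `origin/helper74`,
`Fermat/Agent/S18/H74/Setup.lean`, theorem `descent`).

**Norm descent**: let `F'/F` be a finite extension of function fields over `K` of degree prime
to `m`, and `u ∈ F` with `m ∣ ord_P u` for all places `P` of `F`.  Then
* `m ∣ ord_{P'} u` for all places `P'` of `F'`, and
* if `u = c · w'^m` in `F'` (with `c ∈ Kˣ`), then `u = c₀ · w^m` in `F` (with `c₀ ∈ Kˣ`).
-/
import Mathlib
import Fermat.Prelude.Def_AlgebraicCurve_DivisorPushPull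

set_option autoImplicit false

open AlgebraicCurve

noncomputable section

namespace Fermat.Agent.S18.H60

variable (K : Type*) [Field K] (F : Type*) [Field F] [Algebra K F]

/-- Divisibility of all orders is inherited by a finite extension. -/
theorem dvd_ord_algebraMap {F' : Type*} [Field F'] [Algebra K F'] [Algebra F F']
    [IsScalarTower K F F'] [FiniteDimensional F F'] (m : ℕ) (u : F)
    (hord : ∀ P : Place K F, (m : ℤ) ∣ P.ord u) (P' : Place K F') :
    (m : ℤ) ∣ P'.ord (algebraMap F F' u) := by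
  rw [Place.ord_restrict (F := F) P' u]
  exact Dvd.dvd.mul_left (hord (P'.restrict F)) _

/-- The purely algebraic norm argument: if `u ^ d = c' * v ^ m` with `d` prime to `m`,
then `u` is a constant times an `m`-th power. -/
theorem exists_eq_mul_pow_of_pow_eq (m d : ℕ) (hcop : d.Coprime m) (u v : F) (c' : K)
    (hc' : c' ≠ 0) (h : u ^ d = algebraMap K F c' * v ^ m) :
    ∃ (c : K) (w : F), c ≠ 0 ∧ u = algebraMap K F c * w ^ m := by
  rcases eq_or_ne u 0 with rfl | hu
  · rcases Nat.eq_zero_or_pos m with rfl | hm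
    · -- `m = 0`, so `d = 1` and `0 = c'`, absurd
      have hd : d = 1 := by simpa using hcop
      subst hd
      simp only [pow_one, pow_zero, mul_one] at h
      exact absurd ((map_eq_zero (algebraMap K F)).mp h.symm) hc'
    · exact ⟨1, 0, one_ne_zero, by simp [hm.ne']⟩
  · -- Bezout: `d * a + m * b = 1`
    have hbez : (d : ℤ) * Nat.gcdA d m + (m : ℤ) * Nat.gcdB d m = 1 := by
      have := Nat.gcd_eq_gcd_ab d m
      rw [hcop] at this
      exact_mod_cast this.symm
    set a : ℤ := Nat.gcdA d m with ha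
    set b : ℤ := Nat.gcdB d m with hb
    refine ⟨c' ^ a, v ^ a * u ^ b, zpow_ne_zero _ hc', ?_⟩
    have h1 : u = (u ^ d) ^ a * (u ^ b) ^ m := by
      rw [← zpow_natCast u d, ← zpow_mul, ← zpow_natCast (u ^ b) m, ← zpow_mul, ← zpow_add₀ hu,
        mul_comm b, hbez, zpow_one]
    have h2 : (v ^ m) ^ a = (v ^ a) ^ m := by
      rw [← zpow_natCast v m, ← zpow_mul, ← zpow_natCast (v ^ a) m, ← zpow_mul, mul_comm]
    rw [h, mul_zpow, h2] at h1
    rw [map_zpow₀, mul_pow, ← mul_assoc]
    exact h1

/-- **Norm descent** (package P11b of #1073; statement verbatim from `origin/helper74`). -/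
theorem descent {F' : Type*} [Field F'] [Algebra K F'] [Algebra F F'] [IsScalarTower K F F']
    [FiniteDimensional F F'] (m : ℕ) (hcop : (Module.finrank F F').Coprime m) (u : F)
    (hord : ∀ P : Place K F, (m : ℤ) ∣ P.ord u) :
    (∀ P' : Place K F', (m : ℤ) ∣ P'.ord (algebraMap F F' u)) ∧
      ((∃ (c : K) (w' : F'), c ≠ 0 ∧ algebraMap F F' u = algebraMap K F' c * w' ^ m) →
        ∃ (c : K) (w : F), c ≠ 0 ∧ u = algebraMap K F c * w ^ m) := by
  refine ⟨dvd_ord_algebraMap K F m u hord, ?_⟩
  rintro ⟨c, w', hc, hu⟩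
  have hN := congrArg (Algebra.norm F) hu
  rw [Algebra.norm_algebraMap, map_mul, map_pow, IsScalarTower.algebraMap_apply K F F',
    Algebra.norm_algebraMap, ← map_pow] at hN
  exact exists_eq_mul_pow_of_pow_eq K F m (Module.finrank F F') hcop u (Algebra.norm F w')
    (c ^ Module.finrank F F') (pow_ne_zero _ hc) hN

end Fermat.Agent.S18.H60
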