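/-
S18 / wave 4 (helper60): core-2 leaf K2-ALG (`absT_of_algebraic` of `origin/helper19`
`Fermat/Agent/S18/H19/Core2.lean` @abdaf5c, VERBATIM): the degenerate case of the abstract
Theorem T.  If the base function `x` of a `Setup` is algebraic over the algebraically closed
constant field, then `F` is the constant field and every element is a `p`-th power.
-/
import Mathlib
import Fermat.Agent.S18.H74.Setup

set_option autoImplicit false

open AlgebraicCurve IntermediateField

noncomputable section

namespace Fermat.Agent.S18.H60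

open Fermat.Agent.S18.H74

/-- An element algebraic over an algebraically closed field is a constant. -/
theorem mem_range_algebraMap_of_isAlgebraic {K F : Type*} [Field K] [IsAlgClosed K] [Field F]
    [Algebra K F] {u : F} (hu : IsAlgebraic K u) : ∃ a : K, algebraMap K F a = u := by
  have hint : IsIntegral K u := hu.isIntegral
  have hdeg : (minpoly K u).degree = 1 :=
    IsAlgClosed.degree_eq_one_of_irreducible K (minpoly.irreducible hint)
  exact minpoly.mem_range_of_degree_eq_one K u hdeg

/-- General form: finite over `K(x)` with `x` algebraic over `K` algebraically closed. -/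
theorem exists_eq_pow_of_isAlgebraic {K F : Type*} [Field K] [IsAlgClosed K] [Field F]
    [Algebra K F] (x : F) (hx : IsAlgebraic K x) (hfin : FiniteDimensional K⟮x⟯ F)
    (p : ℕ) (hp : 0 < p) (u : F) : ∃ w : F, u = w ^ p := by
  have h1 : Algebra.IsAlgebraic K K⟮x⟯ := IntermediateField.isAlgebraic_adjoin_simple hx.isIntegral
  have h2 : Algebra.IsAlgebraic K⟮x⟯ F := Algebra.IsAlgebraic.of_finite K⟮x⟯ F
  have h3 : Algebra.IsAlgebraic K F := Algebra.IsAlgebraic.trans K K⟮x⟯ F
  obtain ⟨a, ha⟩ := mem_range_algebraMap_of_isAlgebraic (h3.isAlgebraic u)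
  obtain ⟨b, hb⟩ := IsAlgClosed.exists_pow_nat_eq a hp
  exact ⟨algebraMap K F b, by rw [← map_pow, hb, ha]⟩

/-- **K2-ALG** (statement verbatim from `origin/helper19` Core2.lean, `Qb = AlgebraicClosure ℚ`). -/
theorem absT_of_algebraic (A : ValuationSubring (AlgebraicClosure ℚ)) {F : Type} [Field F]
    [Algebra (AlgebraicClosure ℚ) F] (O : ValuationSubring F) (x : F)
    (hx : IsAlgebraic (AlgebraicClosure ℚ) x)
    (hS : Setup (AlgebraicClosure ℚ) A F O x) (p : ℕ) (hp : p.Prime) (u : F) :
    ∃ w : F, u = w ^ p :=
  exists_eq_pow_of_isAlgebraic x hx hS.finite p hp.pos u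

end Fermat.Agent.S18.H60
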