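/-
S18 / wave 4 (helper60): core-2 leaf K2-CH-D (`origin/helper19`, `Fermat/Agent/S18/H19/Core2.lean`
@abdaf5c): the GENERIC facts on the chart `C = ` integral closure of `A₀[x]` in `F₀`
(`A₀` a DVR of characteristic zero, `x` transcendental, `F₀ / K₀(x)` finite):

* `chart_isIntegrallyClosed` : `C` is integrally closed;
* `chart_fin`                : `C` is a finitely generated `A₀[x]`-module (Finset-span shape);
* `chart_frac`               : `F₀ = Frac C`;
* `chart_glue`               : `C₁[1/x] = C₂[x]` (from the landed `H92.glue_of_mem_iff`).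

`chart A₀ x` and `ratSub A₀ x` of Core2.lean are written out here as
`(integralClosure (Algebra.adjoin A₀ {x}) F₀).restrictScalars A₀` and
`Subfield.closure (Set.range (algebraMap A₀ F₀) ∪ {x})`.
-/
import Mathlib
import Fermat.Agent.S18.H92.Glue

set_option autoImplicit false

open Polynomial

noncomputable section

namespace Fermat.Agent.S18.H60

section Generic

variable {A₀ : Type*} [CommRing A₀] {F₀ : Type*} [Field F₀] [Algebra A₀ F₀]

/-- `A₀[x] ⊆ K₀(x)` inside `F₀`. -/
theorem adjoin_le_closure (x : F₀) :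
    ∀ r ∈ Algebra.adjoin A₀ ({x} : Set F₀),
      r ∈ Subfield.closure (Set.range (algebraMap A₀ F₀) ∪ {x}) := by
  intro r hr
  rw [← Subalgebra.mem_toSubring, Algebra.adjoin_eq_ring_closure] at hr
  exact (Subring.closure_le (t := (Subfield.closure
    (Set.range (algebraMap A₀ F₀) ∪ {x})).toSubring)).mpr Subfield.subset_closure hr

/-- The inclusion `A₀[x] → K₀(x)`. -/
def adjoinToClosure (x : F₀) : ↥(Algebra.adjoin A₀ ({x} : Set F₀)) →+*
    ↥(Subfield.closure (Set.range (algebraMap A₀ F₀) ∪ {x})) where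
  toFun r := ⟨r.1, adjoin_le_closure x r.1 r.2⟩
  map_one' := rfl
  map_mul' _ _ := rfl
  map_zero' := rfl
  map_add' _ _ := rfl

/-- `K₀(x)` is the fraction field of `A₀[x]`. -/
theorem isFractionRing_adjoin_closure (x : F₀) :
    letI : Algebra ↥(Algebra.adjoin A₀ ({x} : Set F₀))
        ↥(Subfield.closure (Set.range (algebraMap A₀ F₀) ∪ {x})) := (adjoinToClosure x).toAlgebra
    IsFractionRing ↥(Algebra.adjoin A₀ ({x} : Set F₀))
      ↥(Subfield.closure (Set.range (algebraMap A₀ F₀) ∪ {x})) := by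
  letI : Algebra ↥(Algebra.adjoin A₀ ({x} : Set F₀))
      ↥(Subfield.closure (Set.range (algebraMap A₀ F₀) ∪ {x})) := (adjoinToClosure x).toAlgebra
  haveI : FaithfulSMul ↥(Algebra.adjoin A₀ ({x} : Set F₀))
      ↥(Subfield.closure (Set.range (algebraMap A₀ F₀) ∪ {x})) := by
    rw [faithfulSMul_iff_algebraMap_injective]
    intro a b hab
    have h := congrArg (fun t : ↥(Subfield.closure (Set.range (algebraMap A₀ F₀) ∪ {x})) =>
      (t : F₀)) hab
    exact Subtype.ext h
  refine IsFractionRing.of_field _ _ fun z => ?_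
  obtain ⟨y, hy, w, hw, hz⟩ := Subfield.mem_closure_iff.mp z.2
  rw [← Algebra.adjoin_eq_ring_closure, Subalgebra.mem_toSubring] at hy hw
  exact ⟨⟨y, hy⟩, ⟨w, hw⟩, Subtype.ext hz.symm⟩

/-- **CH-D** `chart_isIntegrallyClosed` (no hypothesis): the integral closure of `A₀[x]` in the
field `F₀` is an integrally closed domain. -/
theorem chart_isIntegrallyClosed (x : F₀) :
    IsIntegrallyClosed
      ↥((integralClosure (Algebra.adjoin A₀ ({x} : Set F₀)) F₀).restrictScalars A₀) := by
  set C : Subalgebra A₀ F₀ :=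
    (integralClosure (Algebra.adjoin A₀ ({x} : Set F₀)) F₀).restrictScalars A₀ with hC
  rw [isIntegrallyClosed_iff (FractionRing ↥C)]
  intro z hz
  have hinj : Function.Injective (algebraMap ↥C F₀) := Subtype.val_injective
  -- the embedding of the fraction field into `F₀`
  have hcomp : (algebraMap ↥C F₀).comp (RingHom.id ↥C) =
      (IsFractionRing.lift hinj : FractionRing ↥C →+* F₀).comp
        (algebraMap ↥C (FractionRing ↥C)) := by
    ext c
    simp [IsFractionRing.lift_algebraMap]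
  have h1 : IsIntegral ↥C ((IsFractionRing.lift hinj : FractionRing ↥C →+* F₀) z) :=
    hz.map_of_comp_eq (RingHom.id ↥C) _ hcomp
  -- integral over `C`, hence over the integral closure, hence over `A₀[x]`
  have h2 : IsIntegral ↥(integralClosure (Algebra.adjoin A₀ ({x} : Set F₀)) F₀)
      ((IsFractionRing.lift hinj : FractionRing ↥C →+* F₀) z) :=
    h1.map_of_comp_eq
      ((C.subtype : ↥C →+* F₀).codRestrict
        (integralClosure (Algebra.adjoin A₀ ({x} : Set F₀)) F₀) (fun c => c.2))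
      (RingHom.id F₀) (by ext; rfl)
  have h3 : IsIntegral ↥(Algebra.adjoin A₀ ({x} : Set F₀))
      ((IsFractionRing.lift hinj : FractionRing ↥C →+* F₀) z) :=
    isIntegral_trans (A := integralClosure (Algebra.adjoin A₀ ({x} : Set F₀)) F₀) _ h2
  refine ⟨⟨_, h3⟩, ?_⟩
  apply (IsFractionRing.lift hinj : FractionRing ↥C →+* F₀).injective
  rw [IsFractionRing.lift_algebraMap]
  rfl

/-- **CH-D** `chart_glue`: `C₁[1/x] = C₂[x]` (landed `H92.glue_of_mem_iff`). -/
theorem chart_glue (x : F₀) (hx : x ≠ 0) :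
    ∀ y : F₀,
      (∃ n : ℕ, x ^ n * y ∈
        (integralClosure (Algebra.adjoin A₀ ({x} : Set F₀)) F₀).restrictScalars A₀) ↔
      (∃ n : ℕ, x⁻¹ ^ n * y ∈
        (integralClosure (Algebra.adjoin A₀ ({x⁻¹} : Set F₀)) F₀).restrictScalars A₀) :=
  H92.glue_of_mem_iff (R := A₀) hx _ _ (fun _ => Iff.rfl) (fun _ => Iff.rfl)

end Generic

section DVR

variable {A₀ : Type*} [CommRing A₀] [IsDomain A₀] [IsDiscreteValuationRing A₀] [CharZero A₀]
  {F₀ : Type*} [Field F₀] [Algebra A₀ F₀] [FaithfulSMul A₀ F₀] (x : F₀)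

/-- `A₀[X] ≃ A₀[x]` for `x` transcendental. -/
def polyEquivAdjoin (htr : Transcendental A₀ x) :
    A₀[X] ≃ₐ[A₀] ↥(Algebra.adjoin A₀ ({x} : Set F₀)) :=
  (AlgEquiv.ofInjective (aeval x) (transcendental_iff_injective.mp htr)).trans
    (Subalgebra.equivOfEq _ _ (Algebra.adjoin_singleton_eq_range_aeval A₀ x).symm)

/-- `A₀[x]` is integrally closed (`A₀[X]` is a UFD). -/
theorem isIntegrallyClosed_adjoin (htr : Transcendental A₀ x) :
    IsIntegrallyClosed ↥(Algebra.adjoin A₀ ({x} : Set F₀)) :=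
  IsIntegrallyClosed.of_equiv (polyEquivAdjoin x htr).toRingEquiv

/-- `A₀[x]` is noetherian. -/
theorem isNoetherianRing_adjoin : IsNoetherianRing ↥(Algebra.adjoin A₀ ({x} : Set F₀)) :=
  isNoetherianRing_of_fg ⟨{x}, by simp⟩

/-- The integral closure of `A₀[x]` in `F₀` is a finite `A₀[x]`-module. -/
theorem finite_integralClosure_adjoin (htr : Transcendental A₀ x)
    (hfin : Module.Finite ↥(Subfield.closure (Set.range (algebraMap A₀ F₀) ∪ {x})) F₀) :
    Module.Finite ↥(Algebra.adjoin A₀ ({x} : Set F₀))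
      ↥(integralClosure ↥(Algebra.adjoin A₀ ({x} : Set F₀)) F₀) := by
  letI : Algebra ↥(Algebra.adjoin A₀ ({x} : Set F₀))
      ↥(Subfield.closure (Set.range (algebraMap A₀ F₀) ∪ {x})) := (adjoinToClosure x).toAlgebra
  haveI := isFractionRing_adjoin_closure (A₀ := A₀) x
  haveI : IsScalarTower ↥(Algebra.adjoin A₀ ({x} : Set F₀))
      ↥(Subfield.closure (Set.range (algebraMap A₀ F₀) ∪ {x})) F₀ :=
    IsScalarTower.of_algebraMap_eq fun r => rfl
  haveI := isIntegrallyClosed_adjoin x htr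
  haveI := isNoetherianRing_adjoin (A₀ := A₀) x
  haveI : CharZero F₀ :=
    charZero_of_injective_algebraMap (FaithfulSMul.algebraMap_injective A₀ F₀)
  haveI : CharZero ↥(Subfield.closure (Set.range (algebraMap A₀ F₀) ∪ {x})) :=
    (RingHom.charZero_iff (Subfield.subtype _).injective).mpr inferInstance
  haveI : FiniteDimensional ↥(Subfield.closure (Set.range (algebraMap A₀ F₀) ∪ {x})) F₀ := hfin
  exact IsIntegralClosure.finite ↥(Algebra.adjoin A₀ ({x} : Set F₀))
    ↥(Subfield.closure (Set.range (algebraMap A₀ F₀) ∪ {x})) F₀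
    ↥(integralClosure ↥(Algebra.adjoin A₀ ({x} : Set F₀)) F₀)

/-- **CH-D** `chart_fin`: the chart is a finitely generated `A₀[x]`-module, in the Finset-span
shape of `cech_charts` (`hfin₁`, `hfin₂`). -/
theorem chart_fin (htr : Transcendental A₀ x)
    (hfin : Module.Finite ↥(Subfield.closure (Set.range (algebraMap A₀ F₀) ∪ {x})) F₀) :
    ∃ s : Finset F₀,
      (((integralClosure (Algebra.adjoin A₀ ({x} : Set F₀)) F₀).restrictScalars A₀ :
        Subalgebra A₀ F₀) : Set F₀) =
        Submodule.span (Algebra.adjoin A₀ ({x} : Set F₀)) (s : Set F₀) := by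
  classical
  haveI := finite_integralClosure_adjoin x htr hfin
  obtain ⟨t, ht⟩ := (Module.Finite.fg_top : (⊤ : Submodule ↥(Algebra.adjoin A₀ ({x} : Set F₀))
    ↥(integralClosure ↥(Algebra.adjoin A₀ ({x} : Set F₀)) F₀)).FG)
  refine ⟨Finset.image (Subtype.val :
    ↥(integralClosure ↥(Algebra.adjoin A₀ ({x} : Set F₀)) F₀) → F₀) t, ?_⟩
  ext y
  constructor
  · intro hy
    have hy' : y ∈ integralClosure ↥(Algebra.adjoin A₀ ({x} : Set F₀)) F₀ := hy
    have hmem : (⟨y, hy'⟩ : ↥(integralClosure ↥(Algebra.adjoin A₀ ({x} : Set F₀)) F₀)) ∈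
        Submodule.span ↥(Algebra.adjoin A₀ ({x} : Set F₀)) (t : Set _) := ht ▸ Submodule.mem_top
    have h := Submodule.apply_mem_span_image_of_mem_span
      ((integralClosure ↥(Algebra.adjoin A₀ ({x} : Set F₀)) F₀).val.toLinearMap) hmem
    rw [Finset.coe_image]
    exact h
  · intro hy
    rw [Finset.coe_image] at hy
    have hle : Submodule.span ↥(Algebra.adjoin A₀ ({x} : Set F₀))
        ((Subtype.val : ↥(integralClosure ↥(Algebra.adjoin A₀ ({x} : Set F₀)) F₀) → F₀) '' ↑t) ≤
        Subalgebra.toSubmodule (integralClosure ↥(Algebra.adjoin A₀ ({x} : Set F₀)) F₀) := by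
      rw [Submodule.span_le]
      rintro _ ⟨c, -, rfl⟩
      exact c.2
    exact hle hy

/-- **CH-D** `chart_frac`: every element of `F₀` is a quotient of two elements of the chart. -/
theorem chart_frac
    (hfin : Module.Finite ↥(Subfield.closure (Set.range (algebraMap A₀ F₀) ∪ {x})) F₀) :
    ∀ y : F₀,
      ∃ a ∈ (integralClosure (Algebra.adjoin A₀ ({x} : Set F₀)) F₀).restrictScalars A₀,
      ∃ b ∈ (integralClosure (Algebra.adjoin A₀ ({x} : Set F₀)) F₀).restrictScalars A₀,
        b ≠ 0 ∧ y = a / b := by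
  intro y
  letI : Algebra ↥(Algebra.adjoin A₀ ({x} : Set F₀))
      ↥(Subfield.closure (Set.range (algebraMap A₀ F₀) ∪ {x})) := (adjoinToClosure x).toAlgebra
  haveI := isFractionRing_adjoin_closure (A₀ := A₀) x
  haveI : IsScalarTower ↥(Algebra.adjoin A₀ ({x} : Set F₀))
      ↥(Subfield.closure (Set.range (algebraMap A₀ F₀) ∪ {x})) F₀ :=
    IsScalarTower.of_algebraMap_eq fun r => rfl
  haveI : FiniteDimensional ↥(Subfield.closure (Set.range (algebraMap A₀ F₀) ∪ {x})) F₀ := hfin
  have halgK : IsAlgebraic ↥(Subfield.closure (Set.range (algebraMap A₀ F₀) ∪ {x})) y :=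
    Algebra.IsAlgebraic.isAlgebraic y
  have halg : IsAlgebraic ↥(Algebra.adjoin A₀ ({x} : Set F₀)) y :=
    (IsFractionRing.isAlgebraic_iff ↥(Algebra.adjoin A₀ ({x} : Set F₀))
      ↥(Subfield.closure (Set.range (algebraMap A₀ F₀) ∪ {x})) F₀).mpr halgK
  obtain ⟨d, hd0, hd⟩ := halg.exists_integral_multiple
  have hd0' : (d : F₀) ≠ 0 := fun h => hd0 (Subtype.ext h)
  refine ⟨d • y, hd, (d : F₀), isIntegral_algebraMap (x := d), hd0', ?_⟩
  rw [Algebra.smul_def, eq_div_iff hd0', mul_comm]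
  rfl

end DVR

end Fermat.Agent.S18.H60
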