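/-
S18 / wave 4 (helper60): the characteristic-zero degree of the function field of `X₀(N)` over the
LEVEL-ONE `j`-line, read off the landed S24 closure (no Fricke involution needed):

  `[ℚ̄(j(q^d) : d ∣ N) : ℚ̄(j(q))] = ψ(N)`.

Inputs (all landed): `S24.exists_modularGlobalData` (local data of `F_N / ℚ̄(j)` indexed by
`SL₂(ℤ)/Γ₀(N)`), `S24.LocalData.sum_ord_π` (the orders of `j - c` at its zeros add up to the
number of cosets), `S24.H79.exists_finset_ord_pos_adjoin` (fundamental identity: they add up to
`[F : K(j)]`) and `S20.H77.card_quotient_Gamma0` (`#SL₂(ℤ)/Γ₀(N) = ψ(N)`).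
-/
import Mathlib
import Fermat.Agent.S24.ModGlobal
import Fermat.Agent.S24.LocalSum
import Fermat.Agent.S24.Algebraic
import Fermat.Agent.S24.Ker
import Fermat.Agent.S24.H79.Fib
import Fermat.Agent.S20.H77.Index

set_option autoImplicit false

open AlgebraicCurve ModularCurve Fermat.Agent.S24
open scoped MatrixGroups

noncomputable section

namespace Fermat.Agent.S18.H60

/-- The local parameter of a `LocalData` is nonzero. -/
theorem localData_param_ne_zero {K F X : Type*} [Field K] [Field F] [Algebra K F] [Fintype X]
    [Nonempty X] {R : Subalgebra K F} {π : F} (L : LocalData K F X R π) : π ≠ 0 := by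
  rintro rfl
  obtain ⟨x⟩ := ‹Nonempty X›
  have h1 := L.order_π x
  rw [map_zero, HahnSeries.order_zero] at h1
  exact absurd h1.symm (by exact_mod_cast L.s_pos.ne')

/-- The level-one `j` is transcendental over `ℚ̄` (read off the S24 local data: a constant `j = c`
would make the local parameter `j - c` vanish). -/
theorem transcendental_jgen (N : ℕ) [NeZero N] : Transcendental Kbar (jgen N) := by
  classical
  haveI : Fintype (XX N) := Fintype.ofFinite _
  obtain ⟨G, -, -⟩ := exists_modularGlobalData N
  intro halg
  have hint : IsIntegral Kbar (jgen N) := halg.isIntegral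
  have hdeg : (minpoly Kbar (jgen N)).degree = 1 :=
    IsAlgClosed.degree_eq_one_of_irreducible Kbar (minpoly.irreducible hint)
  obtain ⟨c, hc⟩ := minpoly.mem_range_of_degree_eq_one Kbar (jgen N) hdeg
  have hπ : jgen N - algebraMap Kbar (FF N) c = 0 := by rw [hc, sub_self]
  exact localData_param_ne_zero (G.fin c) hπ

/-- `F_N` is algebraic over `ℚ̄(j)`. -/
theorem isAlgebraic_adjoin_jgen (N : ℕ) [NeZero N] :
    Algebra.IsAlgebraic (IntermediateField.adjoin Kbar {jgen N}) (FF N) := by
  classical
  haveI : Fintype (XX N) := Fintype.ofFinite _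
  obtain ⟨G, -, -⟩ := exists_modularGlobalData N
  have hj0 : jgen N - algebraMap Kbar (FF N) 0 = jgen N := by simp
  have h := (G.fin 0).isAlgebraic G.frac
  rwa [hj0] at h

/-- `F_N` is finite over `ℚ̄(j)`. -/
theorem finiteDimensional_adjoin_jgen (N : ℕ) [NeZero N] :
    FiniteDimensional (IntermediateField.adjoin Kbar {jgen N}) (FF N) := by
  classical
  have halg := isAlgebraic_adjoin_jgen N
  have hfin : FiniteDimensional (IntermediateField.adjoin Kbar {jgen N})
      (IntermediateField.adjoin (IntermediateField.adjoin Kbar {jgen N}) (Set.range (jF N))) :=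
    IntermediateField.finiteDimensional_adjoin fun x _ => (halg.isAlgebraic x).isIntegral
  have key : ∀ P : MvPolynomial (N.divisors) Kbar, evF N P ∈
      IntermediateField.adjoin (IntermediateField.adjoin Kbar {jgen N}) (Set.range (jF N)) := by
    intro P
    induction P using MvPolynomial.induction_on with
    | C a =>
      have h : evF N (MvPolynomial.C a) = algebraMap (IntermediateField.adjoin Kbar {jgen N}) (FF N)
          (algebraMap Kbar (IntermediateField.adjoin Kbar {jgen N}) a) := by
        simp [evF]
      rw [h]
      exact IntermediateField.algebraMap_mem _ _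
    | add p q hp hq =>
      rw [map_add]
      exact add_mem hp hq
    | mul_X p d hp =>
      rw [map_mul]
      refine mul_mem hp ?_
      have h : evF N (MvPolynomial.X d) = jF N d := by simp [evF]
      rw [h]
      exact IntermediateField.subset_adjoin _ _ ⟨d, rfl⟩
  have htop : IntermediateField.adjoin (IntermediateField.adjoin Kbar {jgen N}) (Set.range (jF N))
      = ⊤ := by
    rw [eq_top_iff]
    intro f _
    obtain ⟨P, Q, -, rfl⟩ := evF_frac N f
    exact div_mem (key P) (key Q)
  rw [htop] at hfin
  exact (IntermediateField.topEquiv (F := IntermediateField.adjoin Kbar {jgen N})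
    (E := FF N)).toLinearEquiv.finiteDimensional

/-- **Degree over the level-one `j`-line**: `[F_N : ℚ̄(j)] = ψ(N)`. -/
theorem finrank_adjoin_jgen (N : ℕ) [NeZero N] :
    Module.finrank (IntermediateField.adjoin Kbar {jgen N}) (FF N) = dedekindPsi N := by
  classical
  haveI : Fintype (XX N) := Fintype.ofFinite _
  obtain ⟨G, -, -⟩ := exists_modularGlobalData N
  have hR := G.frac
  haveI := finiteDimensional_adjoin_jgen N
  obtain ⟨s, hs, hsum⟩ := H79.exists_finset_ord_pos_adjoin (jgen N) (transcendental_jgen N)
  have h2 := (G.fin 0).sum_ord_π hR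
  have hj0 : jgen N - algebraMap Kbar (FF N) 0 = jgen N := by simp
  have hseq : ((G.fin 0).finite_places hR).toFinset = s := by
    ext v
    rw [Set.Finite.mem_toFinset, hs, Set.mem_setOf_eq, hj0]
  rw [hseq, hj0] at h2
  have h3 : (Module.finrank (IntermediateField.adjoin Kbar {jgen N}) (FF N) : ℤ)
      = (Fintype.card (XX N) : ℤ) := by rw [← hsum, ← h2]
  have hcard : Fintype.card (XX N) = dedekindPsi N := by
    rw [← Nat.card_eq_fintype_card]
    exact S20.H77.card_quotient_Gamma0 N
  rw [← hcard]
  exact_mod_cast h3

end Fermat.Agent.S18.H60
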